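/-
S36, block BP, node LOC1 (part 1): general API of the localisation `locSub B 𝔫` of a subring `B` of
a field `F` at a prime ideal `𝔫`, as a subring of `F`.
-/
import Mathlib
import Fermat.Agent.S18.Defs
import Fermat.Agent.S36.BP.Defs

set_option autoImplicit false
set_option linter.style.haveILetI false
set_option linter.unusedSectionVars false

noncomputable section

namespace Fermat.Agent.S36.BP

open Fermat.Agent.S18 IntermediateField

variable {F : Type*} [Field F] {B : Subring F} {𝔫 : Ideal B} [h𝔫 : 𝔫.IsPrime]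

theorem le_locSub : B ≤ locSub B 𝔫 := fun b hb =>
  ⟨⟨b, hb⟩, 1, fun h => h𝔫.ne_top ((Ideal.eq_top_iff_one _).2 h), by simp⟩

theorem coe_ne_zero_of_notMem {s : B} (hs : s ∉ 𝔫) : (s : F) ≠ 0 := by
  intro h
  apply hs
  have : s = 0 := Subtype.ext h
  rw [this]
  exact 𝔫.zero_mem

theorem inv_mem_locSub {s : B} (hs : s ∉ 𝔫) : (s : F)⁻¹ ∈ locSub B 𝔫 :=
  ⟨1, s, hs, by
    rw [inv_mul_cancel₀ (coe_ne_zero_of_notMem hs)]
    rfl⟩

theorem rUnit_locSub_iff {y : F} :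
    RUnit (locSub B 𝔫) y ↔ ∃ a s : B, a ∉ 𝔫 ∧ s ∉ 𝔫 ∧ y * (s : F) = (a : F) := by
  constructor
  · rintro ⟨hy0, ⟨a, s, hs, e⟩, ⟨a', s', hs', e'⟩⟩
    refine ⟨a, s, fun ha => ?_, hs, e⟩
    have h1 : s * s' = a * a' := by
      apply Subtype.ext
      push_cast
      rw [← e, ← e']
      field_simp
    have h2 : s * s' ∈ 𝔫 := by
      rw [h1]
      exact 𝔫.mul_mem_right _ ha
    exact (h𝔫.mem_or_mem h2).elim hs hs'
  · rintro ⟨a, s, ha, hs, e⟩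
    have ha0 := coe_ne_zero_of_notMem ha
    have hs0 := coe_ne_zero_of_notMem hs
    have hy0 : y ≠ 0 := by
      rintro rfl
      rw [zero_mul] at e
      exact ha0 e.symm
    refine ⟨hy0, ⟨a, s, hs, e⟩, ⟨s, a, ha, ?_⟩⟩
    rw [← e]
    field_simp

theorem mem_rad_locSub_iff {y : F} :
    y ∈ rad (locSub B 𝔫) ↔ ∃ a s : B, a ∈ 𝔫 ∧ s ∉ 𝔫 ∧ y * (s : F) = (a : F) := by
  constructor
  · rintro ⟨⟨a, s, hs, e⟩, hnu⟩
    refine ⟨a, s, ?_, hs, e⟩
    by_contra ha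
    exact hnu (rUnit_locSub_iff.mpr ⟨a, s, ha, hs, e⟩)
  · rintro ⟨a, s, ha, hs, e⟩
    refine ⟨⟨a, s, hs, e⟩, fun hu => ?_⟩
    obtain ⟨a', s', ha', hs', e'⟩ := rUnit_locSub_iff.mp hu
    have h1 : a * s' = a' * s := by
      apply Subtype.ext
      push_cast
      rw [← e, ← e']
      ring
    have h2 : a' * s ∈ 𝔫 := by
      rw [← h1]
      exact 𝔫.mul_mem_right _ ha
    exact (h𝔫.mem_or_mem h2).elim ha' hs

theorem coe_mem_rad_locSub {a : B} (ha : a ∈ 𝔫) : (a : F) ∈ rad (locSub B 𝔫) :=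
  mem_rad_locSub_iff.mpr
    ⟨a, 1, ha, fun h => h𝔫.ne_top ((Ideal.eq_top_iff_one _).2 h), by simp⟩

theorem add_mem_rad_locSub {y y' : F} (hy : y ∈ rad (locSub B 𝔫)) (hy' : y' ∈ rad (locSub B 𝔫)) :
    y + y' ∈ rad (locSub B 𝔫) := by
  rw [mem_rad_locSub_iff] at hy hy' ⊢
  obtain ⟨a, s, ha, hs, e⟩ := hy
  obtain ⟨a', s', ha', hs', e'⟩ := hy'
  refine ⟨a * s' + a' * s, s * s', 𝔫.add_mem (𝔫.mul_mem_right _ ha) (𝔫.mul_mem_right _ ha'),
    fun h => (h𝔫.mem_or_mem h).elim hs hs', ?_⟩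
  push_cast
  rw [← e, ← e']
  ring

theorem mul_mem_rad_locSub {r y : F} (hr : r ∈ locSub B 𝔫) (hy : y ∈ rad (locSub B 𝔫)) :
    r * y ∈ rad (locSub B 𝔫) := by
  rw [mem_rad_locSub_iff] at hy ⊢
  obtain ⟨b, t, ht, e'⟩ := hr
  obtain ⟨a, s, ha, hs, e⟩ := hy
  refine ⟨b * a, t * s, 𝔫.mul_mem_left _ ha, fun h => (h𝔫.mem_or_mem h).elim ht hs, ?_⟩
  push_cast
  rw [← e, ← e']
  ring

/-- The inclusion `B → locSub B 𝔫`. -/
def locIncl (B : Subring F) (𝔫 : Ideal B) [𝔫.IsPrime] : B →+* locSub B 𝔫 :=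
  Subring.inclusion le_locSub

theorem coe_locIncl (b : B) : ((locIncl B 𝔫 b : locSub B 𝔫) : F) = b := rfl

/-- `locSub B 𝔫` is the localisation of `B` at `𝔫`. -/
theorem isLocalization_locSub :
    @IsLocalization B _ 𝔫.primeCompl (locSub B 𝔫) _ (locIncl B 𝔫).toAlgebra := by
  letI : Algebra B (locSub B 𝔫) := (locIncl B 𝔫).toAlgebra
  refine ⟨?_, ?_, ?_⟩
  · rintro ⟨s, hs⟩
    have hs' : s ∉ 𝔫 := hs
    refine IsUnit.of_mul_eq_one ⟨(s : F)⁻¹, inv_mem_locSub hs'⟩ (Subtype.ext ?_)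
    show (s : F) * (s : F)⁻¹ = 1
    exact mul_inv_cancel₀ (coe_ne_zero_of_notMem hs')
  · rintro ⟨z, a, s, hs, e⟩
    exact ⟨(a, ⟨s, hs⟩), Subtype.ext e⟩
  · intro a b hab
    refine ⟨1, ?_⟩
    have : a = b := Subtype.ext (congrArg (fun z : locSub B 𝔫 => (z : F)) hab)
    rw [this]

theorem isNoetherianRing_locSub [IsNoetherianRing B] : IsNoetherianRing (locSub B 𝔫) := by
  letI : Algebra B (locSub B 𝔫) := (locIncl B 𝔫).toAlgebra
  haveI := isLocalization_locSub (B := B) (𝔫 := 𝔫)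
  exact IsLocalization.isNoetherianRing 𝔫.primeCompl (locSub B 𝔫) inferInstance

/-- If `B` is integrally closed in `F`, so is `locSub B 𝔫`. -/
theorem mem_locSub_of_isIntegral (hB : ∀ y : F, IsIntegral B y → y ∈ B) (y : F)
    (hy : IsIntegral (locSub B 𝔫) y) : y ∈ locSub B 𝔫 := by
  letI : Algebra B (locSub B 𝔫) := (locIncl B 𝔫).toAlgebra
  haveI := isLocalization_locSub (B := B) (𝔫 := 𝔫)
  haveI : IsScalarTower B (locSub B 𝔫) F := IsScalarTower.of_algebraMap_eq fun _ => rfl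
  obtain ⟨⟨s, hs⟩, hm⟩ :=
    IsIntegral.exists_multiple_integral_of_isLocalization 𝔫.primeCompl y hy
  have h1 : (s : F) * y ∈ B := hB _ hm
  exact ⟨⟨_, h1⟩, s, hs, by simp [mul_comm]⟩

end Fermat.Agent.S36.BP
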