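/-
S36, block BP, node LOC1 (part 2): the chart `chart A₀ x` (integral closure of `A₀[x]` in `F`) is a
finite `A₀[x]`-module and a noetherian ring, for `A₀` a discrete valuation ring of a field `K₀` of
characteristic zero, `x` transcendental and `F / K₀(x)` finite.
-/
import Mathlib
import Fermat.Agent.S18.Defs
import Fermat.Agent.S18.Chart.Const
import Fermat.Agent.S18.Chart.DedPoly

set_option autoImplicit false
set_option linter.style.haveILetI false

noncomputable section

namespace Fermat.Agent.S36.BP

open Fermat.Agent.S18 IntermediateField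

variable {K₀ F : Type*} [Field K₀] [Field F] [Algebra K₀ F]
variable {A₀ : ValuationSubring K₀} {ϖ₀ : K₀} {x : F}

/-- `A₀[x] → K₀(x)`. -/
def polyToAdjoin (A₀ : ValuationSubring K₀) (x : F) : polyRing A₀.toSubring x →+* K₀⟮x⟯ :=
  (polyRing A₀.toSubring x).subtype.codRestrict K₀⟮x⟯.toSubfield.toSubring
    (fun y => mem_of_mem_polyRing rfl _ y.1 y.2)

theorem coe_polyToAdjoin (y : polyRing A₀.toSubring x) : ((polyToAdjoin A₀ x y : K₀⟮x⟯) : F) = y :=
  rfl

/-- The integral closure of `A₀[x]` in `F` is a finite `A₀[x]`-module and a noetherian ring. -/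
theorem finite_and_noeth_integralClosure [CharZero K₀] (h₀ : IsUnif A₀ ϖ₀)
    (hx : Transcendental K₀ x) (hfin : FiniteDimensional K₀⟮x⟯ F) :
    Module.Finite (polyRing A₀.toSubring x) (integralClosure (polyRing A₀.toSubring x) F) ∧
      IsNoetherianRing (integralClosure (polyRing A₀.toSubring x) F) := by
  letI : Algebra (polyRing A₀.toSubring x) K₀⟮x⟯ := (polyToAdjoin A₀ x).toAlgebra
  haveI : IsScalarTower (polyRing A₀.toSubring x) K₀⟮x⟯ F :=
    IsScalarTower.of_algebraMap_eq fun _ => rfl
  haveI : FaithfulSMul (polyRing A₀.toSubring x) K₀⟮x⟯ := by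
    rw [faithfulSMul_iff_algebraMap_injective]
    intro a b hab
    exact Subtype.ext (congrArg (fun z : K₀⟮x⟯ => (z : F)) hab)
  haveI : IsFractionRing (polyRing A₀.toSubring x) K₀⟮x⟯ := by
    refine IsFractionRing.of_field _ _ fun z => ?_
    obtain ⟨a, ha, b, hb, hb0, e⟩ := exists_frac_polyRing h₀ (rfl : K₀⟮x⟯ = K₀⟮x⟯) z.1 z.2
    refine ⟨⟨a, ha⟩, ⟨b, hb⟩, Subtype.ext ?_⟩
    show (z : F) = a / b
    rw [← e]
    field_simp
  haveI : IsNoetherianRing (polyRing A₀.toSubring x) := isNoetherianRing_polyRing h₀ hx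
  haveI : IsIntegrallyClosed (polyRing A₀.toSubring x) := DedPoly.isIntegrallyClosed_polyRing hx
  haveI : CharZero K₀⟮x⟯ := charZero_of_injective_algebraMap (algebraMap K₀ K₀⟮x⟯).injective
  haveI : Algebra.IsSeparable K₀⟮x⟯ F := inferInstance
  exact ⟨IsIntegralClosure.finite (polyRing A₀.toSubring x) K₀⟮x⟯ F _,
    IsIntegralClosure.isNoetherianRing (polyRing A₀.toSubring x) K₀⟮x⟯ F _⟩

/-- The identity, as a ring isomorphism between the two avatars of the chart. -/
def chartEquiv (S : Subring K₀) (x : F) : integralClosure (polyRing S x) F ≃+* chart S x where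
  toFun y := ⟨y.1, y.2⟩
  invFun y := ⟨y.1, y.2⟩
  left_inv _ := rfl
  right_inv _ := rfl
  map_mul' _ _ := rfl
  map_add' _ _ := rfl

theorem isNoetherianRing_chart [CharZero K₀] (h₀ : IsUnif A₀ ϖ₀)
    (hx : Transcendental K₀ x) (hfin : FiniteDimensional K₀⟮x⟯ F) :
    IsNoetherianRing (chart A₀.toSubring x) := by
  haveI := (finite_and_noeth_integralClosure h₀ hx hfin).2
  exact isNoetherianRing_of_ringEquiv _ (chartEquiv A₀.toSubring x)

/-- `A₀ → chart A₀ x`. -/
def constToChart (A₀ : ValuationSubring K₀) (x : F) : A₀ →+* chart A₀.toSubring x :=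
  ((algebraMap K₀ F).comp A₀.subtype).codRestrict (chart A₀.toSubring x) (fun a =>
    polyRing_le_chart _ _ ((mem_polyRing_iff _ _ _).mpr
      ⟨Polynomial.C (a : K₀), fun i => by
        rw [Polynomial.coeff_C]
        split_ifs
        · exact a.2
        · exact A₀.zero_mem, by simp⟩))

theorem coe_constToChart (a : A₀) :
    ((constToChart A₀ x a : chart A₀.toSubring x) : F) = algebraMap K₀ F a := rfl

/-- The chart is an `A₀`-algebra of finite type. -/
theorem finiteType_constToChart [CharZero K₀] (h₀ : IsUnif A₀ ϖ₀)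
    (hx : Transcendental K₀ x) (hfin : FiniteDimensional K₀⟮x⟯ F) :
    (constToChart A₀ x).FiniteType := by
  -- `A₀ → A₀[X] ≃ A₀[x] → integral closure ≃ chart`
  have h1 : (Polynomial.C : A₀.toSubring →+* Polynomial A₀.toSubring).FiniteType := by
    rw [← Polynomial.algebraMap_eq]
    exact RingHom.finiteType_algebraMap.mpr inferInstance
  have h2 : ((polyEquiv A₀.toSubring hx : Polynomial A₀.toSubring ≃+* _) :
      Polynomial A₀.toSubring →+* polyRing A₀.toSubring x).FiniteType :=
    RingHom.FiniteType.of_surjective _ (polyEquiv A₀.toSubring hx).surjective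
  have h3 : (algebraMap (polyRing A₀.toSubring x)
      (integralClosure (polyRing A₀.toSubring x) F)).FiniteType := by
    have := (finite_and_noeth_integralClosure h₀ hx hfin).1
    have h : (algebraMap (polyRing A₀.toSubring x)
      (integralClosure (polyRing A₀.toSubring x) F)).Finite := this
    exact h.finiteType
  have h4 : ((chartEquiv A₀.toSubring x : _ ≃+* _) :
      integralClosure (polyRing A₀.toSubring x) F →+* chart A₀.toSubring x).FiniteType :=
    RingHom.FiniteType.of_surjective _ (chartEquiv A₀.toSubring x).surjective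
  have h5 := h4.comp (h3.comp (h2.comp h1))
  have h6 : (constToChart A₀ x : A₀.toSubring →+* chart A₀.toSubring x) =
      ((chartEquiv A₀.toSubring x : _ ≃+* _) :
        integralClosure (polyRing A₀.toSubring x) F →+* chart A₀.toSubring x).comp
      ((algebraMap (polyRing A₀.toSubring x) (integralClosure (polyRing A₀.toSubring x) F)).comp
        (((polyEquiv A₀.toSubring hx : Polynomial A₀.toSubring ≃+* _) :
          Polynomial A₀.toSubring →+* polyRing A₀.toSubring x).comp Polynomial.C)) := by
    refine RingHom.ext fun a => Subtype.ext ?_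
    exact (polyEquiv_C A₀.toSubring hx a).symm
  have h7 : (constToChart A₀ x : A₀.toSubring →+* chart A₀.toSubring x).FiniteType := by
    rw [h6]
    exact h5
  exact h7

end Fermat.Agent.S36.BP
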